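import Fermat.Agent.Lib.Cheb.H356.Relation
import Fermat.Agent.Lib.Cheb.Spec

/-!
# CHEB / AN (helper356): `Spec.DirichletLimitStatement`

`dirichletLimit : Spec.DirichletLimitStatement` : for a Dirichlet character `χ` mod `m` and a
number field `F` such that `χ (N I) ∉ {0, 1}` for some ideal `I`, the Dirichlet series
`∑_n χ(n) #{I : N I = n} n^(-s)` has a limit as `s → 1⁺`.
-/

namespace Fermat.Agent.Lib.Cheb.H356

open NumberField Module

open scoped Classical nonZeroDivisors Topology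

/-- The fibre of the norm over `n ≠ 0` inside the nonzero ideals. -/
noncomputable def fibreEquiv (F : Type) [Field F] [NumberField F] {n : ℕ} (hn : n ≠ 0) :
    ((fun I : (Ideal (𝓞 F))⁰ ↦ Ideal.absNorm (I : Ideal (𝓞 F))) ⁻¹' {n}) ≃
      {I : Ideal (𝓞 F) // Ideal.absNorm I = n} where
  toFun I := ⟨(I.1 : Ideal (𝓞 F)), I.2⟩
  invFun I := ⟨⟨I.1, mem_nonZeroDivisors_iff_ne_zero.mpr (by
    intro h
    have h2 := I.2
    rw [h] at h2
    simp at h2
    exact hn h2.symm)⟩, I.2⟩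
  left_inv I := rfl
  right_inv I := rfl

theorem ofReal_rpow_neg_eq (n : ℕ) (s : ℝ) :
    ((((n : ℝ) ^ (-s) : ℝ)) : ℂ) = ((n : ℂ) ^ (s : ℂ))⁻¹ := by
  rw [Complex.ofReal_cpow (Nat.cast_nonneg n), Complex.ofReal_neg, Complex.cpow_neg,
    Complex.ofReal_natCast]

theorem LSeries_term_eq (F : Type) [Field F] [NumberField F] {m : ℕ}
    (χ : DirichletCharacter ℂ m) (s : ℝ) (n : ℕ) :
    LSeries.term (fun n => χ (n : ZMod m) * (Spec.idealCount F n : ℂ)) (s : ℂ) n =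
      ∑' I : ((fun I : (Ideal (𝓞 F))⁰ ↦ Ideal.absNorm (I : Ideal (𝓞 F))) ⁻¹' {n}),
        term χ s ((I : (Ideal (𝓞 F))⁰) : Ideal (𝓞 F)) := by
  have hconst : (fun I : ((fun I : (Ideal (𝓞 F))⁰ ↦ Ideal.absNorm (I : Ideal (𝓞 F))) ⁻¹' {n}) ↦
      term χ s ((I : (Ideal (𝓞 F))⁰) : Ideal (𝓞 F))) =
      fun _ ↦ χ (n : ZMod m) * ((((n : ℝ) ^ (-s) : ℝ)) : ℂ) := by
    funext I
    have hI : Ideal.absNorm ((I : (Ideal (𝓞 F))⁰) : Ideal (𝓞 F)) = n := I.2
    rw [term, hI]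
  rw [hconst, tsum_const]
  rcases eq_or_ne n 0 with rfl | hn
  · rw [LSeries.term_zero]
    have : Nat.card ((fun I : (Ideal (𝓞 F))⁰ ↦ Ideal.absNorm (I : Ideal (𝓞 F))) ⁻¹' {0}) = 0 := by
      rw [Nat.card_eq_zero]
      left
      refine ⟨fun I ↦ ?_⟩
      have hI : Ideal.absNorm ((I : (Ideal (𝓞 F))⁰) : Ideal (𝓞 F)) = 0 := I.2
      rw [Ideal.absNorm_eq_zero_iff] at hI
      exact nonZeroDivisors.coe_ne_zero I.1 hI
    rw [this, zero_smul]
  · rw [LSeries.term_of_ne_zero hn, Nat.card_congr (fibreEquiv F hn), ofReal_rpow_neg_eq,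
      nsmul_eq_mul]
    unfold Spec.idealCount
    rw [div_eq_mul_inv]
    ring

theorem LSeries_eq_normL (F : Type) [Field F] [NumberField F] {m : ℕ}
    (χ : DirichletCharacter ℂ m) {s : ℝ} (hs : 1 < s) :
    LSeries (fun n => χ (n : ZMod m) * (Spec.idealCount F n : ℂ)) (s : ℂ) =
      normL (K := F) χ s := by
  have h := (summable_term (K := F) χ hs).hasSum.tsum_fiberwise
    (fun I : (Ideal (𝓞 F))⁰ ↦ Ideal.absNorm (I : Ideal (𝓞 F)))
  unfold LSeries normL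
  rw [← h.tsum_eq]
  exact tsum_congr fun n ↦ LSeries_term_eq F χ s n

/-- **(AN)** The analytic core of Tier 2 of `Lib/Cheb`. -/
theorem dirichletLimit : Spec.DirichletLimitStatement := by
  intro F _ _ m _ χ ⟨I, hI0, hI1⟩
  have hcop : (Ideal.absNorm I).Coprime m := coprime_of_chi_ne_zero χ hI0
  have hIne : I ≠ ⊥ := by
    rintro rfl
    rw [Ideal.absNorm_bot] at hcop hI1
    have hm : m = 1 := (Nat.coprime_zero_left m).mp hcop
    subst hm
    apply hI1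
    have h0 : (((0 : ℕ) : ZMod 1)) = 1 := Subsingleton.elim _ _
    rw [h0, map_one]
  obtain ⟨c, hc⟩ := exists_tendsto_normL χ ⟨I, mem_nonZeroDivisors_iff_ne_zero.mpr hIne⟩ hcop hI1
  refine ⟨c, hc.congr' ?_⟩
  filter_upwards [self_mem_nhdsWithin] with s hs
  exact (LSeries_eq_normL F χ hs).symm

end Fermat.Agent.Lib.Cheb.H356
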