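import Fermat.Agent.Lib.Cheb.H356.Orbit

/-!
# CHEB / AN (helper356): class decomposition of the twisted ideal series

* `summable_term` : the series `∑_I χ(N I) N(I)^(-s)` over nonzero ideals converges for `s > 1`.
* `tsum_PJ_eq` : `∑_{I' principal ≤ 𝔟} term I' = term 𝔟 * ζ_D` for `[𝔟] = D⁻¹`.
* `tsum_term_eq_sum_classZ` : `∑_I term I = ∑_D ζ_D`.
-/

namespace Fermat.Agent.Lib.Cheb.H356

open NumberField NumberField.mixedEmbedding NumberField.Units Module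
open Fermat.Agent.S14.H74

open scoped Classical nonZeroDivisors

variable {K : Type*} [Field K] [NumberField K] {m : ℕ} (χ : DirichletCharacter ℂ m)

/-- The real term `N(I)^(-s)`. -/
noncomputable def rterm (s : ℝ) (I : Ideal (𝓞 K)) : ℝ := ((Ideal.absNorm I : ℕ) : ℝ) ^ (-s)

theorem rterm_nonneg (s : ℝ) (I : Ideal (𝓞 K)) : 0 ≤ rterm s I :=
  Real.rpow_nonneg (Nat.cast_nonneg _) _

theorem rterm_mul (s : ℝ) (I J : Ideal (𝓞 K)) : rterm s (I * J) = rterm s I * rterm s J := by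
  unfold rterm
  rw [map_mul, Nat.cast_mul, Real.mul_rpow (Nat.cast_nonneg _) (Nat.cast_nonneg _)]

theorem rterm_pos (s : ℝ) {I : Ideal (𝓞 K)} (hI : I ≠ ⊥) : 0 < rterm s I := by
  unfold rterm
  apply Real.rpow_pos_of_pos
  have : Ideal.absNorm I ≠ 0 := by rwa [Ne, Ideal.absNorm_eq_zero_iff]
  exact_mod_cast Nat.pos_of_ne_zero this

theorem term_eq (s : ℝ) (I : Ideal (𝓞 K)) :
    term χ s I = χ ((Ideal.absNorm I : ℕ) : ZMod m) * (rterm s I : ℂ) := rfl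

theorem term_mul (s : ℝ) (I J : Ideal (𝓞 K)) : term χ s (I * J) = term χ s I * term χ s J := by
  rw [term_eq, term_eq, term_eq, rterm_mul, map_mul, Nat.cast_mul, map_mul]
  push_cast
  ring

theorem norm_term_le (s : ℝ) (I : Ideal (𝓞 K)) : ‖term χ s I‖ ≤ rterm s I := by
  rw [term_eq, norm_mul, Complex.norm_real, Real.norm_eq_abs, abs_of_nonneg (rterm_nonneg s I)]
  exact mul_le_of_le_one_left (rterm_nonneg s I) (DirichletCharacter.norm_le_one χ _)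

theorem FS_unit_mul_gen {J : Ideal (𝓞 K)} (I : PJ J) (u : (𝓞 K)ˣ) (s : ℝ) :
    FS K s ((u : 𝓞 K) * gen I) =
      rho K (mixedEmbedding K (((u : 𝓞 K) * gen I : 𝓞 K) : K)) * rterm s I.1 := by
  unfold FS fS rterm
  rw [mixedEmbedding_norm_eq_absNorm, span_unit_mul_gen]

/-- Summability over the principal ideals contained in `J`. -/
theorem summable_rterm_PJ (J : Ideal (𝓞 K)) {s : ℝ} (hs : 1 < s) :
    Summable fun I : PJ J ↦ rterm s I.1 := by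
  have h0 : Summable fun x : {x : J // (x : 𝓞 K) ≠ 0} ↦ FS K s ((x : J) : 𝓞 K) :=
    (summable_FS (K := K) hs).comp_injective
      (Subtype.val_injective.comp Subtype.val_injective)
  have h1 : Summable ((fun x : {x : J // (x : 𝓞 K) ≠ 0} ↦ FS K s ((x : J) : 𝓞 K)) ∘
      orbitEquiv J) := ((orbitEquiv J).summable_iff).mpr h0
  have h2 := h1.prod
  have h3 : (fun I : PJ J ↦ ∑' u : (𝓞 K)ˣ,
      ((fun x : {x : J // (x : 𝓞 K) ≠ 0} ↦ FS K s ((x : J) : 𝓞 K)) ∘ orbitEquiv J) (I, u)) =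
      fun I : PJ J ↦ (torsionOrder K : ℝ) * rterm s I.1 := by
    funext I
    simp only [Function.comp_apply, orbitEquiv_apply, FS_unit_mul_gen]
    rw [tsum_mul_right, (hasSum_rho_units_int (K := K) (gen_ne_zero I)).tsum_eq]
  rw [h3] at h2
  have hpos : (torsionOrder K : ℝ) ≠ 0 := by
    exact_mod_cast torsionOrder_ne_zero K
  have := h2.mul_left ((torsionOrder K : ℝ))⁻¹
  simpa [← mul_assoc, inv_mul_cancel₀ hpos] using this

/-- Nonzero ideals of class `D`. -/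
abbrev CI (D : ClassGroup (𝓞 K)) : Type _ :=
  {I : (Ideal (𝓞 K))⁰ // ClassGroup.mk0 I = D}

/-- Multiplication by `𝔟`, from the ideals of class `[𝔟]⁻¹` to the principal ideals
contained in `𝔟`. -/
noncomputable def classFwd (𝔟 : (Ideal (𝓞 K))⁰) (D : ClassGroup (𝓞 K))
    (h : ClassGroup.mk0 𝔟 = D⁻¹) (I : CI D) : PJ (𝔟 : Ideal (𝓞 K)) :=
  ⟨((I.1 : Ideal (𝓞 K)) * (𝔟 : Ideal (𝓞 K))), Ideal.mul_le_right,
    mul_ne_zero (nonZeroDivisors.coe_ne_zero I.1) (nonZeroDivisors.coe_ne_zero 𝔟), by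
      have h1 : ClassGroup.mk0 (I.1 * 𝔟) = 1 := by
        rw [map_mul, I.2, h, mul_inv_cancel]
      exact (ClassGroup.mk0_eq_one_iff (I.1 * 𝔟).2).mp h1⟩

theorem classFwd_coe (𝔟 : (Ideal (𝓞 K))⁰) (D : ClassGroup (𝓞 K))
    (h : ClassGroup.mk0 𝔟 = D⁻¹) (I : CI D) :
    ((classFwd 𝔟 D h I : PJ (𝔟 : Ideal (𝓞 K))) : Ideal (𝓞 K)) =
      (I.1 : Ideal (𝓞 K)) * (𝔟 : Ideal (𝓞 K)) := rfl

theorem classFwd_bijective (𝔟 : (Ideal (𝓞 K))⁰) (D : ClassGroup (𝓞 K))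
    (h : ClassGroup.mk0 𝔟 = D⁻¹) : Function.Bijective (classFwd 𝔟 D h) := by
  constructor
  · intro I I' hII
    have h1 : (I.1 : Ideal (𝓞 K)) * (𝔟 : Ideal (𝓞 K)) = (I'.1 : Ideal (𝓞 K)) * 𝔟 :=
      congrArg Subtype.val hII
    have h2 : (I.1 : Ideal (𝓞 K)) = I'.1 :=
      mul_right_cancel₀ (nonZeroDivisors.coe_ne_zero 𝔟) h1
    exact Subtype.ext (Subtype.ext h2)
  · rintro ⟨I', hle, hne, hprin⟩
    obtain ⟨I, hI⟩ := Ideal.dvd_iff_le.mpr hle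
    have hI0 : I ≠ ⊥ := by
      rintro rfl
      apply hne
      rw [hI]
      simp
    have hImem : I ∈ (Ideal (𝓞 K))⁰ := mem_nonZeroDivisors_iff_ne_zero.mpr hI0
    have hcls : ClassGroup.mk0 ⟨I, hImem⟩ = D := by
      have h1 : ClassGroup.mk0 (𝔟 * ⟨I, hImem⟩) = 1 := by
        rw [ClassGroup.mk0_eq_one_iff (𝔟 * ⟨I, hImem⟩).2]
        show Submodule.IsPrincipal ((𝔟 : Ideal (𝓞 K)) * I)
        rw [← hI]
        exact hprin
      rw [map_mul, h] at h1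
      exact (inv_mul_eq_one.mp h1).symm ▸ rfl
    refine ⟨⟨⟨I, hImem⟩, hcls⟩, ?_⟩
    apply Subtype.ext
    show I * (𝔟 : Ideal (𝓞 K)) = I'
    rw [hI, mul_comm]

/-- Multiplication by `𝔟` identifies the ideals of class `[𝔟]⁻¹` with the principal ideals
contained in `𝔟`. -/
noncomputable def classEquiv (𝔟 : (Ideal (𝓞 K))⁰) (D : ClassGroup (𝓞 K))
    (h : ClassGroup.mk0 𝔟 = D⁻¹) : CI D ≃ PJ (𝔟 : Ideal (𝓞 K)) :=
  Equiv.ofBijective (classFwd 𝔟 D h) (classFwd_bijective 𝔟 D h)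

theorem classEquiv_apply (𝔟 : (Ideal (𝓞 K))⁰) (D : ClassGroup (𝓞 K))
    (h : ClassGroup.mk0 𝔟 = D⁻¹) (I : CI D) :
    ((classEquiv 𝔟 D h I : PJ (𝔟 : Ideal (𝓞 K))) : Ideal (𝓞 K)) =
      (I.1 : Ideal (𝓞 K)) * (𝔟 : Ideal (𝓞 K)) := by
  rw [classEquiv, Equiv.ofBijective_apply, classFwd_coe]

/-- Summability over an ideal class. -/
theorem summable_rterm_CI (D : ClassGroup (𝓞 K)) {s : ℝ} (hs : 1 < s) :
    Summable fun I : CI D ↦ rterm s (I.1 : Ideal (𝓞 K)) := by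
  obtain ⟨𝔟, h𝔟⟩ := ClassGroup.mk0_surjective (D⁻¹ : ClassGroup (𝓞 K))
  have h1 := summable_rterm_PJ (𝔟 : Ideal (𝓞 K)) hs
  have h2 := ((classEquiv 𝔟 D h𝔟).summable_iff).mpr h1
  have h3 : ((fun I : PJ (𝔟 : Ideal (𝓞 K)) ↦ rterm s I.1) ∘ classEquiv 𝔟 D h𝔟) =
      fun I : CI D ↦ rterm s (I.1 : Ideal (𝓞 K)) * rterm s (𝔟 : Ideal (𝓞 K)) := by
    funext I
    simp only [Function.comp_apply, classEquiv_apply, rterm_mul]
  rw [h3] at h2
  have hpos : rterm s (𝔟 : Ideal (𝓞 K)) ≠ 0 := (rterm_pos s (nonZeroDivisors.coe_ne_zero 𝔟)).ne'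
  have := h2.mul_right (rterm s (𝔟 : Ideal (𝓞 K)))⁻¹
  simpa [mul_assoc, mul_inv_cancel₀ hpos] using this

theorem summable_term_CI (D : ClassGroup (𝓞 K)) {s : ℝ} (hs : 1 < s) :
    Summable fun I : CI D ↦ term χ s (I.1 : Ideal (𝓞 K)) :=
  Summable.of_norm_bounded (summable_rterm_CI D hs) (fun I ↦ norm_term_le χ s _)

/-- Summability over all nonzero ideals. -/
theorem summable_rterm {s : ℝ} (hs : 1 < s) :
    Summable fun I : (Ideal (𝓞 K))⁰ ↦ rterm s (I : Ideal (𝓞 K)) := by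
  have h1 : Summable (fun p : (Σ D : ClassGroup (𝓞 K), CI D) ↦
      rterm s ((p.2.1 : (Ideal (𝓞 K))⁰) : Ideal (𝓞 K))) :=
    (summable_sigma_of_nonneg (fun _ ↦ rterm_nonneg _ _)).mpr
      ⟨fun D ↦ summable_rterm_CI D hs, Summable.of_finite⟩
  exact ((Equiv.sigmaFiberEquiv (ClassGroup.mk0 (R := 𝓞 K))).summable_iff).mp h1

theorem summable_term {s : ℝ} (hs : 1 < s) :
    Summable fun I : (Ideal (𝓞 K))⁰ ↦ term χ s (I : Ideal (𝓞 K)) :=
  Summable.of_norm_bounded (summable_rterm hs) (fun I ↦ norm_term_le χ s _)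

/-- The twisted partial zeta function of the class `D`. -/
noncomputable def classZ (s : ℝ) (D : ClassGroup (𝓞 K)) : ℂ :=
  ∑' I : CI D, term χ s (I.1 : Ideal (𝓞 K))

/-- The twisted ideal series. -/
noncomputable def normL (s : ℝ) : ℂ := ∑' I : (Ideal (𝓞 K))⁰, term χ s (I : Ideal (𝓞 K))

theorem normL_eq_sum_classZ {s : ℝ} (hs : 1 < s) :
    normL (K := K) χ s = ∑ D : ClassGroup (𝓞 K), classZ χ s D := by
  have h := (summable_term (K := K) χ hs).hasSum.tsum_fiberwise (ClassGroup.mk0 (R := 𝓞 K))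
  have h2 := h.tsum_eq
  rw [tsum_fintype] at h2
  exact h2.symm

theorem tsum_PJ_eq (𝔟 : (Ideal (𝓞 K))⁰) (D : ClassGroup (𝓞 K))
    (h : ClassGroup.mk0 𝔟 = D⁻¹) (s : ℝ) :
    ∑' I : PJ (𝔟 : Ideal (𝓞 K)), term χ s I.1 = classZ χ s D * term χ s (𝔟 : Ideal (𝓞 K)) := by
  unfold classZ
  rw [← (classEquiv 𝔟 D h).tsum_eq, ← tsum_mul_right]
  refine tsum_congr fun I ↦ ?_
  rw [classEquiv_apply, term_mul]

end Fermat.Agent.Lib.Cheb.H356
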