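import Fermat.Agent.Lib.Cheb.H356.Twist

/-!
# CHEB / AN (helper356): coset comparison of twisted lattice sums

For ideals `J' ≤ J` with a system of representatives `r i` of `J / J'` consisting of periods
(`r i ∈ m 𝓞`), the difference `∑_{x ∈ J} GS s x - [J : J'] ∑_{y ∈ J'} GS s y` is, on `(1, 2]`,
the restriction of a function which is continuous on `[1, 2]`.
-/

namespace Fermat.Agent.Lib.Cheb.H356

open NumberField Module
open Fermat.Agent.S14.H74

open scoped Classical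

variable {K : Type*} [Field K] [NumberField K] {m : ℕ} (χ : DirichletCharacter ℂ m)

/-- The difference series `∑_{y ∈ J'} (GS s (y + t) - GS s y)`. -/
noncomputable def DS (J' : Ideal (𝓞 K)) (t : 𝓞 K) (s : ℝ) : ℂ :=
  ∑' y : J', (GS K χ s ((y : 𝓞 K) + t) - GS K χ s (y : 𝓞 K))

theorem continuousOn_DS (J' : Ideal (𝓞 K)) (t : 𝓞 K) (ht : t ∈ Ideal.span {(m : 𝓞 K)}) :
    ContinuousOn (DS χ J' t) (Set.Icc 1 2) := by
  obtain ⟨g, hg, -, hgb⟩ := exists_dominating_twist χ t ht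
  unfold DS
  refine continuousOn_tsum (u := fun y : J' ↦ g (y : 𝓞 K)) (fun y ↦ ?_)
    (hg.comp_injective Subtype.val_injective) (fun y s hs ↦ hgb s hs.1 hs.2 y)
  exact ((continuous_GS χ _).sub (continuous_GS χ _)).continuousOn

theorem summable_GS_sub (J' : Ideal (𝓞 K)) {s : ℝ} (hs : 1 < s) :
    Summable fun y : J' ↦ GS K χ s (y : 𝓞 K) :=
  (summable_GS χ hs).comp_injective Subtype.val_injective

theorem summable_GS_shift (J' : Ideal (𝓞 K)) (t : 𝓞 K) {s : ℝ} (hs : 1 < s) :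
    Summable fun y : J' ↦ GS K χ s ((y : 𝓞 K) + t) := by
  refine (summable_GS χ hs).comp_injective (i := fun y : J' ↦ (y : 𝓞 K) + t) ?_
  intro y y' h
  exact Subtype.ext (add_right_cancel h)

theorem tsum_shift_eq (J' : Ideal (𝓞 K)) (t : 𝓞 K) {s : ℝ} (hs : 1 < s) :
    ∑' y : J', GS K χ s ((y : 𝓞 K) + t) = ∑' y : J', GS K χ s (y : 𝓞 K) + DS χ J' t s := by
  unfold DS
  rw [(summable_GS_shift χ J' t hs).tsum_sub (summable_GS_sub χ J' hs)]
  ring

/-- Coset decomposition of the twisted sum over `J` along `J'`. -/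
theorem tsum_eq_card_mul_add (J J' : Ideal (𝓞 K)) {ι : Type*} [Fintype ι] (r : ι → 𝓞 K)
    (e : ι × J' ≃ J) (he : ∀ (i : ι) (y : J'), ((e (i, y) : J) : 𝓞 K) = (y : 𝓞 K) + r i)
    {s : ℝ} (hs : 1 < s) :
    ∑' x : J, GS K χ s (x : 𝓞 K) =
      (Fintype.card ι : ℂ) * ∑' y : J', GS K χ s (y : 𝓞 K) + ∑ i, DS χ J' (r i) s := by
  have hsumJ : Summable fun x : J ↦ GS K χ s (x : 𝓞 K) := summable_GS_sub χ J hs
  have hs' : Summable ((fun x : J ↦ GS K χ s (x : 𝓞 K)) ∘ e) :=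
    (e.summable_iff (f := fun x : J ↦ GS K χ s (x : 𝓞 K))).mpr hsumJ
  have e1 : ∑' x : J, GS K χ s (x : 𝓞 K) =
      ∑' p : ι × J', ((fun x : J ↦ GS K χ s (x : 𝓞 K)) ∘ e) p :=
    (e.tsum_eq (fun x : J ↦ GS K χ s (x : 𝓞 K))).symm
  have hq : ∀ i : ι, Summable fun y : J' ↦ ((fun x : J ↦ GS K χ s (x : 𝓞 K)) ∘ e) (i, y) := by
    intro i
    simp only [Function.comp_apply, he]
    exact summable_GS_shift χ J' (r i) hs
  rw [e1, hs'.tsum_prod' hq, tsum_fintype]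
  simp only [Function.comp_apply, he]
  simp_rw [tsum_shift_eq χ J' _ hs]
  rw [Finset.sum_add_distrib, Finset.sum_const, Finset.card_univ, nsmul_eq_mul]

/-- **Key comparison** (analytic form). -/
theorem exists_continuousOn_compare (J J' : Ideal (𝓞 K)) {ι : Type*} [Fintype ι] (r : ι → 𝓞 K)
    (hr : ∀ i, r i ∈ Ideal.span {(m : 𝓞 K)})
    (e : ι × J' ≃ J) (he : ∀ (i : ι) (y : J'), ((e (i, y) : J) : 𝓞 K) = (y : 𝓞 K) + r i) :
    ∃ R : ℝ → ℂ, ContinuousOn R (Set.Icc 1 2) ∧ ∀ s : ℝ, 1 < s →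
      ∑' x : J, GS K χ s (x : 𝓞 K) =
        (Fintype.card ι : ℂ) * ∑' y : J', GS K χ s (y : 𝓞 K) + R s := by
  refine ⟨fun s ↦ ∑ i, DS χ J' (r i) s, ?_, fun s hs ↦ tsum_eq_card_mul_add χ J J' r e he hs⟩
  exact continuousOn_finsetSum _ fun i _ ↦ continuousOn_DS χ J' (r i) (hr i)

end Fermat.Agent.Lib.Cheb.H356
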