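import Fermat.Agent.S14.H74.Lattice

/-!
# CHEB / AN (helper356): the unit partition of unity

`∑_{u ∈ 𝓞ˣ} rho (u x) = #μ(K)` for `x ≠ 0`.
-/

namespace Fermat.Agent.Lib.Cheb.H356

open NumberField NumberField.mixedEmbedding NumberField.Units
  NumberField.Units.dirichletUnitTheorem Module
open Fermat.Agent.S14.H74

open scoped Classical

variable (K : Type*) [Field K] [NumberField K]

/-- Parametrisation of the units by torsion and exponents on a fundamental system. -/
noncomputable def unitsEquiv : torsion K × (Fin (rank K) → ℤ) ≃ (𝓞 K)ˣ :=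
  Equiv.ofBijective (fun p ↦ (p.1 : (𝓞 K)ˣ) * ∏ i, (fundSystem K i) ^ (p.2 i)) (by
    constructor
    · intro p q h
      obtain ⟨c, -, hc⟩ := exist_unique_eq_mul_prod K
        ((p.1 : (𝓞 K)ˣ) * ∏ i, (fundSystem K i) ^ (p.2 i))
      exact (hc p rfl).trans (hc q h).symm
    · intro x
      obtain ⟨c, hc, -⟩ := exist_unique_eq_mul_prod K x
      exact ⟨c, hc.symm⟩)

theorem unitsEquiv_apply (p : torsion K × (Fin (rank K) → ℤ)) :
    unitsEquiv K p = (p.1 : (𝓞 K)ˣ) * ∏ i, (fundSystem K i) ^ (p.2 i) := rfl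

theorem logEmbedding_unitsEquiv (p : torsion K × (Fin (rank K) → ℤ)) :
    logEmbedding K (Additive.ofMul (unitsEquiv K p)) =
      ((∑ i, (p.2 i) • basisUnitLattice K i : unitLattice K) : logSpace K) := by
  rw [unitsEquiv_apply, ofMul_mul, map_add, ofMul_prod, map_sum]
  have h0 : logEmbedding K (Additive.ofMul (p.1 : (𝓞 K)ˣ)) = 0 :=
    logEmbedding_eq_zero_iff.mpr p.1.2
  rw [h0, zero_add]
  push_cast
  refine Finset.sum_congr rfl fun i _ ↦ ?_
  rw [ofMul_zpow, map_zsmul, logEmbedding_fundSystem]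

variable {K}

theorem logCoord_unitsEquiv_smul (p : torsion K × (Fin (rank K) → ℤ)) {x : mixedSpace K}
    (hx : mixedEmbedding.norm x ≠ 0) (j : Fin (rank K)) :
    logCoord K (unitsEquiv K p • x) j = logCoord K x j + (p.2 j : ℝ) := by
  unfold logCoord
  rw [logMap_unit_smul _ hx, map_add, Finsupp.add_apply, logEmbedding_unitsEquiv,
    Basis.ofZLatticeBasis_repr_apply, Basis.repr_sum_self, add_comm]

theorem rho_unitsEquiv_smul (p : torsion K × (Fin (rank K) → ℤ)) {x : mixedSpace K}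
    (hx : mixedEmbedding.norm x ≠ 0) :
    rho K (unitsEquiv K p • x) = ∏ j, tent (logCoord K x j + (p.2 j : ℝ)) := by
  rw [rho_eq_prod (by rwa [norm_unit_smul])]
  refine Finset.prod_congr rfl fun j _ ↦ ?_
  rw [logCoord_unitsEquiv_smul p hx]

theorem hasSum_const_fst {α β : Type*} [Finite α] {h : β → ℝ} (hnn : ∀ b, 0 ≤ h b)
    (hh : HasSum h 1) : HasSum (fun p : α × β ↦ h p.2) (Nat.card α : ℝ) := by
  let _ : Fintype α := Fintype.ofFinite α
  have hsum : Summable fun p : α × β ↦ h p.2 := by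
    rw [summable_prod_of_nonneg (fun p ↦ hnn p.2)]
    exact ⟨fun _ ↦ hh.summable, Summable.of_finite⟩
  rw [hsum.hasSum_iff, hsum.tsum_prod' (fun _ ↦ hh.summable), tsum_fintype,
    Nat.card_eq_fintype_card]
  simp [hh.tsum_eq]

/-- **P2**: the unit partition of unity. -/
theorem hasSum_rho_units {x : mixedSpace K} (hx : mixedEmbedding.norm x ≠ 0) :
    HasSum (fun u : (𝓞 K)ˣ ↦ rho K (u • x)) (torsionOrder K : ℝ) := by
  rw [← (unitsEquiv K).hasSum_iff]
  have h1 : ((fun u : (𝓞 K)ˣ ↦ rho K (u • x)) ∘ unitsEquiv K) =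
      fun p : torsion K × (Fin (rank K) → ℤ) ↦ ∏ j, tent (logCoord K x j + (p.2 j : ℝ)) := by
    funext p
    exact rho_unitsEquiv_smul p hx
  rw [h1]
  exact hasSum_const_fst (α := torsion K)
    (h := fun k : Fin (rank K) → ℤ ↦ ∏ j, tent (logCoord K x j + (k j : ℝ)))
    (fun k ↦ Finset.prod_nonneg fun j _ ↦ tent_nonneg _) (tent_prod_hasSum _)

/-- **P2** on the ring of integers. -/
theorem hasSum_rho_units_int {g : 𝓞 K} (hg : g ≠ 0) :
    HasSum (fun u : (𝓞 K)ˣ ↦ rho K (mixedEmbedding K (((u : 𝓞 K) * g : 𝓞 K) : K)))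
      (torsionOrder K : ℝ) := by
  have hx : mixedEmbedding.norm (mixedEmbedding K (g : K)) ≠ 0 := by
    have := one_le_mixedEmbedding_norm hg
    linarith
  have h := hasSum_rho_units hx
  convert h using 2 with u
  rw [unitSMul_smul, ← map_mul]
  rfl

end Fermat.Agent.Lib.Cheb.H356
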