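import Fermat.Agent.Lib.Cheb.H356.Twist
import Fermat.Agent.Lib.Cheb.H356.Units

/-!
# CHEB / AN (helper356): the weighted orbit sum

`∑_{x ∈ J} GS s x = #μ(K) * ∑_{I principal, I ≤ J} χ(N I) N(I)^(-s)`.
-/

namespace Fermat.Agent.Lib.Cheb.H356

open NumberField NumberField.mixedEmbedding NumberField.Units Module
open Fermat.Agent.S14.H74

open scoped Classical

variable {K : Type*} [Field K] [NumberField K] {m : ℕ} (χ : DirichletCharacter ℂ m)

/-- Nonzero principal ideals contained in `J`. -/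
abbrev PJ (J : Ideal (𝓞 K)) : Type _ :=
  {I : Ideal (𝓞 K) // I ≤ J ∧ I ≠ ⊥ ∧ Submodule.IsPrincipal I}

/-- The term of the ideal-indexed series. -/
noncomputable def term (s : ℝ) (I : Ideal (𝓞 K)) : ℂ :=
  χ ((Ideal.absNorm I : ℕ) : ZMod m) * (((Ideal.absNorm I : ℕ) : ℝ) ^ (-s) : ℝ)

/-- A chosen generator. -/
noncomputable def gen {J : Ideal (𝓞 K)} (I : PJ J) : 𝓞 K :=
  @Submodule.IsPrincipal.generator _ _ _ _ _ I.1 I.2.2.2

theorem span_gen {J : Ideal (𝓞 K)} (I : PJ J) : Ideal.span {gen I} = I.1 :=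
  @Ideal.span_singleton_generator _ _ I.1 I.2.2.2

theorem gen_ne_zero {J : Ideal (𝓞 K)} (I : PJ J) : gen I ≠ 0 := by
  intro h
  have := span_gen I
  rw [h, Ideal.span_singleton_eq_bot.mpr rfl] at this
  exact I.2.2.1 this.symm

theorem span_unit_mul_gen {J : Ideal (𝓞 K)} (I : PJ J) (u : (𝓞 K)ˣ) :
    Ideal.span {(u : 𝓞 K) * gen I} = I.1 := by
  rw [Ideal.span_singleton_mul_left_unit u.isUnit, span_gen]

theorem unit_mul_gen_mem {J : Ideal (𝓞 K)} (I : PJ J) (u : (𝓞 K)ˣ) :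
    (u : 𝓞 K) * gen I ∈ J := by
  apply I.2.1
  rw [← span_unit_mul_gen I u]
  exact Ideal.mem_span_singleton_self _

/-- Nonzero elements of `J` are parametrised by principal ideals and units. -/
noncomputable def orbitEquiv (J : Ideal (𝓞 K)) :
    PJ J × (𝓞 K)ˣ ≃ {x : J // (x : 𝓞 K) ≠ 0} :=
  Equiv.ofBijective
    (fun p ↦ ⟨⟨(p.2 : 𝓞 K) * gen p.1, unit_mul_gen_mem p.1 p.2⟩,
      mul_ne_zero p.2.ne_zero (gen_ne_zero p.1)⟩) (by
    constructor
    · rintro ⟨I, u⟩ ⟨I', u'⟩ h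
      have h1 : (u : 𝓞 K) * gen I = (u' : 𝓞 K) * gen I' := by
        have := congrArg (fun x : {x : J // (x : 𝓞 K) ≠ 0} ↦ ((x : J) : 𝓞 K)) h
        exact this
      have h2 : I = I' := by
        apply Subtype.ext
        rw [← span_unit_mul_gen I u, ← span_unit_mul_gen I' u', h1]
      subst h2
      have h3 : (u : 𝓞 K) = u' := mul_right_cancel₀ (gen_ne_zero I) h1
      rw [Units.ext h3]
    · rintro ⟨⟨x, hxJ⟩, hx⟩
      have hx0 : x ≠ 0 := hx
      let I : PJ J := ⟨Ideal.span {x}, (Ideal.span_singleton_le_iff_mem J).mpr hxJ,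
        by rwa [Ne, Ideal.span_singleton_eq_bot], ⟨x, rfl⟩⟩
      have h1 : Ideal.span {x} = Ideal.span {gen I} := (span_gen I).symm
      rw [Ideal.span_singleton_eq_span_singleton] at h1
      obtain ⟨u, hu⟩ := h1
      refine ⟨(I, u⁻¹), ?_⟩
      apply Subtype.ext
      apply Subtype.ext
      show ((u⁻¹ : (𝓞 K)ˣ) : 𝓞 K) * gen I = x
      rw [← hu, mul_comm x, ← mul_assoc, Units.inv_mul, one_mul])

theorem orbitEquiv_apply (J : Ideal (𝓞 K)) (p : PJ J × (𝓞 K)ˣ) :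
    (((orbitEquiv J p : {x : J // (x : 𝓞 K) ≠ 0}) : J) : 𝓞 K) = (p.2 : 𝓞 K) * gen p.1 := rfl

theorem mixedEmbedding_norm_eq_absNorm (x : 𝓞 K) :
    mixedEmbedding.norm (mixedEmbedding K (x : K)) = (Ideal.absNorm (Ideal.span {x}) : ℝ) := by
  rw [mixedEmbedding_norm_coe, Ideal.absNorm_span_singleton, Nat.cast_natAbs, Int.cast_abs]

theorem GS_unit_mul_gen {J : Ideal (𝓞 K)} (I : PJ J) (u : (𝓞 K)ˣ) (s : ℝ) :
    GS K χ s ((u : 𝓞 K) * gen I) =
      ((rho K (mixedEmbedding K (((u : 𝓞 K) * gen I : 𝓞 K) : K)) : ℝ) : ℂ) * term χ s I.1 := by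
  unfold GS W FS fS term
  rw [mixedEmbedding_norm_eq_absNorm, span_unit_mul_gen]
  push_cast
  ring

theorem GS_zero (s : ℝ) : GS K χ s 0 = 0 := by
  unfold GS
  rw [FS_zero]
  simp

/-- **Weighted orbit sum.** -/
theorem tsum_GS_eq_torsionOrder_mul (J : Ideal (𝓞 K)) {s : ℝ} (hs : 1 < s) :
    ∑' x : J, GS K χ s (x : 𝓞 K) = (torsionOrder K : ℂ) * ∑' I : PJ J, term χ s I.1 := by
  have hsumJ : Summable fun x : J ↦ GS K χ s (x : 𝓞 K) :=
    (summable_GS χ hs).comp_injective Subtype.val_injective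
  -- remove zero
  have h1 : ∑' x : J, GS K χ s (x : 𝓞 K) =
      ∑' x : {x : J // (x : 𝓞 K) ≠ 0}, GS K χ s ((x : J) : 𝓞 K) := by
    symm
    apply tsum_subtype_eq_of_support_subset (f := fun x : J ↦ GS K χ s (x : 𝓞 K))
    intro x hx
    simp only [Function.mem_support] at hx
    show (x : 𝓞 K) ≠ 0
    intro h
    apply hx
    rw [h, GS_zero]
  have hsum' : Summable fun x : {x : J // (x : 𝓞 K) ≠ 0} ↦ GS K χ s ((x : J) : 𝓞 K) :=
    hsumJ.comp_injective Subtype.val_injective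
  have hsum'' : Summable ((fun x : {x : J // (x : 𝓞 K) ≠ 0} ↦ GS K χ s ((x : J) : 𝓞 K)) ∘
      orbitEquiv J) := ((orbitEquiv J).summable_iff).mpr hsum'
  have h2 : ∑' x : {x : J // (x : 𝓞 K) ≠ 0}, GS K χ s ((x : J) : 𝓞 K) =
      ∑' p : PJ J × (𝓞 K)ˣ,
        ((fun x : {x : J // (x : 𝓞 K) ≠ 0} ↦ GS K χ s ((x : J) : 𝓞 K)) ∘ orbitEquiv J) p :=
    ((orbitEquiv J).tsum_eq _).symm
  rw [h1, h2, hsum''.tsum_prod, ← tsum_mul_left]
  refine tsum_congr fun I ↦ ?_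
  simp only [Function.comp_apply, orbitEquiv_apply, GS_unit_mul_gen]
  rw [tsum_mul_right]
  congr 1
  have h3 := hasSum_rho_units_int (K := K) (gen_ne_zero I)
  have h4 : HasSum (fun u : (𝓞 K)ˣ ↦
      ((rho K (mixedEmbedding K (((u : 𝓞 K) * gen I : 𝓞 K) : K)) : ℝ) : ℂ))
      (((torsionOrder K : ℕ) : ℝ) : ℂ) := by
    exact_mod_cast (Complex.hasSum_ofReal).mpr h3
  rw [h4.tsum_eq]
  push_cast
  rfl

end Fermat.Agent.Lib.Cheb.H356
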