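import Mathlib

/-!
# CHEB / AN (helper356): representatives of `J / I₀ J` inside `m 𝓞`

If `N(I₀)` is prime to `m`, every coset of `I₀ J` in `J` contains an element of `m 𝓞`.
-/

namespace Fermat.Agent.Lib.Cheb.H356

open NumberField

universe u

variable {K : Type u} [Field K] [NumberField K]

theorem exists_reps (m : ℕ) (I₀ J : Ideal (𝓞 K)) (hI₀ : I₀ ≠ ⊥) (hJ : J ≠ ⊥)
    (hcop : (Ideal.absNorm I₀).Coprime m) :
    ∃ (ι : Type u) (_ : Fintype ι) (r : ι → 𝓞 K) (e : ι × ↥(I₀ * J) ≃ ↥J),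
      Fintype.card ι = Ideal.absNorm I₀ ∧ (∀ i, r i ∈ Ideal.span {(m : 𝓞 K)}) ∧
      ∀ (i : ι) (y : ↥(I₀ * J)), ((e (i, y) : J) : 𝓞 K) = (y : 𝓞 K) + r i := by
  classical
  set A : AddSubgroup (𝓞 K) := J.toAddSubgroup with hA
  set B : AddSubgroup (𝓞 K) := (I₀ * J).toAddSubgroup with hB
  have hBA : B ≤ A := fun x hx ↦ (Ideal.mul_le_right : I₀ * J ≤ J) hx
  set H : AddSubgroup ↥A := B.addSubgroupOf A with hH
  have hNJ : Ideal.absNorm J ≠ 0 := by
    rwa [Ne, Ideal.absNorm_eq_zero_iff]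
  have hindex : H.index = Ideal.absNorm I₀ := by
    have h1 : B.relIndex A * A.index = B.index := AddSubgroup.relIndex_mul_index hBA
    have h2 : A.index = Ideal.absNorm J := (Ideal.absNorm_eq_index J).symm
    have h3 : B.index = Ideal.absNorm I₀ * Ideal.absNorm J := by
      rw [← map_mul]
      exact (Ideal.absNorm_eq_index (I₀ * J)).symm
    rw [h2, h3] at h1
    exact Nat.eq_of_mul_eq_mul_right (Nat.pos_of_ne_zero hNJ) h1
  have hN0 : Ideal.absNorm I₀ ≠ 0 := by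
    rwa [Ne, Ideal.absNorm_eq_zero_iff]
  have hindex0 : H.index ≠ 0 := by rw [hindex]; exact hN0
  let _ : Fintype (↥A ⧸ H) := AddSubgroup.fintypeOfIndexNeZero hindex0
  have hcard : Fintype.card (↥A ⧸ H) = Ideal.absNorm I₀ := by
    rw [← hindex, AddSubgroup.index_eq_card, Nat.card_eq_fintype_card]
  -- Bezout
  obtain ⟨a, b, hab⟩ : ∃ a b : ℤ, a * (Ideal.absNorm I₀ : ℤ) + b * (m : ℤ) = 1 :=
    Nat.isCoprime_iff_coprime.mpr hcop
  -- `N(I₀) • x ∈ I₀ J` for `x ∈ J`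
  have hnx : ∀ x : ↥A, (Ideal.absNorm I₀ : ℤ) • (x : 𝓞 K) ∈ B := by
    intro x
    have h1 : H.index • x ∈ H := AddSubgroup.nsmul_index_mem H x
    rw [hindex, hH, AddSubgroup.mem_addSubgroupOf] at h1
    simpa using h1
  let out : (↥A ⧸ H) → ↥A := fun q ↦ Quotient.out q
  have hout : ∀ q, (QuotientAddGroup.mk (out q) : ↥A ⧸ H) = q := fun q ↦ Quotient.out_eq q
  let r : (↥A ⧸ H) → 𝓞 K := fun q ↦ (m : 𝓞 K) * (b • ((out q : ↥A) : 𝓞 K))
  have hr_span : ∀ q, r q ∈ Ideal.span {(m : 𝓞 K)} := fun q ↦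
    Ideal.mem_span_singleton'.mpr ⟨b • ((out q : ↥A) : 𝓞 K), mul_comm _ _⟩
  have hrJ : ∀ q, r q ∈ J := fun q ↦ J.mul_mem_left _ (J.toAddSubgroup.zsmul_mem (out q).2 b)
  have hr_sub : ∀ q, ((out q : ↥A) : 𝓞 K) - r q ∈ B := by
    intro q
    have e1 : ((out q : ↥A) : 𝓞 K) - r q =
        a • ((Ideal.absNorm I₀ : ℤ) • ((out q : ↥A) : 𝓞 K)) := by
      have h2 : (1 : ℤ) • ((out q : ↥A) : 𝓞 K) = ((out q : ↥A) : 𝓞 K) := one_zsmul _
      have h3 : r q = (b * (m : ℤ)) • ((out q : ↥A) : 𝓞 K) := by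
        simp only [r, zsmul_eq_mul]
        push_cast
        ring
      rw [h3, smul_smul]
      nth_rewrite 1 [← h2]
      rw [← sub_smul, ← hab]
      congr 1
      ring
    rw [e1]
    exact B.zsmul_mem (hnx (out q)) a
  have hmk : ∀ (x : ↥A) (q : ↥A ⧸ H), (QuotientAddGroup.mk x : ↥A ⧸ H) = q ↔
      (x : 𝓞 K) - r q ∈ B := by
    intro x q
    have h1 : ((QuotientAddGroup.mk x : ↥A ⧸ H) = q) ↔
        ((QuotientAddGroup.mk x : ↥A ⧸ H) = QuotientAddGroup.mk (out q)) := by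
      rw [hout q]
    rw [h1, QuotientAddGroup.eq, hH, AddSubgroup.mem_addSubgroupOf]
    have e2 : (x : 𝓞 K) - r q =
        -((-x + out q : ↥A) : 𝓞 K) + (((out q : ↥A) : 𝓞 K) - r q) := by
      push_cast
      ring
    constructor
    · intro h
      rw [e2]
      exact B.add_mem (B.neg_mem h) (hr_sub q)
    · intro h
      have e3 : ((-x + out q : ↥A) : 𝓞 K) =
          -(((x : 𝓞 K) - r q) - (((out q : ↥A) : 𝓞 K) - r q)) := by
        push_cast
        ring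
      rw [e3]
      exact B.neg_mem (B.sub_mem h (hr_sub q))
  refine ⟨↥A ⧸ H, inferInstance, r, ?_, hcard, hr_span, ?_⟩
  · refine
      { toFun := fun p ↦ ⟨(p.2 : 𝓞 K) + r p.1, J.add_mem (hBA p.2.2) (hrJ p.1)⟩
        invFun := fun x ↦ (QuotientAddGroup.mk (⟨(x : 𝓞 K), x.2⟩ : ↥A),
          ⟨(x : 𝓞 K) - r (QuotientAddGroup.mk (⟨(x : 𝓞 K), x.2⟩ : ↥A)),
            (hmk ⟨(x : 𝓞 K), x.2⟩ _).mp rfl⟩)
        left_inv := ?_
        right_inv := ?_ }
    · rintro ⟨q, y⟩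
      have hq : (QuotientAddGroup.mk (⟨(y : 𝓞 K) + r q, J.add_mem (hBA y.2) (hrJ q)⟩ : ↥A) :
          ↥A ⧸ H) = q := by
        rw [hmk]
        simp
      refine Prod.ext hq (Subtype.ext ?_)
      simp only
      rw [hq]
      ring
    · intro x
      exact Subtype.ext (by simp)
  · intro i y
    rfl

end Fermat.Agent.Lib.Cheb.H356
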