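import Fermat.Agent.Lib.Cheb.H356.Coset
import Fermat.Agent.Lib.Cheb.H356.Reps
import Fermat.Agent.Lib.Cheb.H356.Classes

/-!
# CHEB / AN (helper356): the functional relation `L = c · L + R` and the limit at `1⁺`

For an ideal `I₀` with `N I₀` prime to `m`:
`ζ_D(s) = N(I₀) χ(N I₀) N(I₀)^(-s) ζ_{D [I₀]⁻¹}(s) + R_D(s)` with `R_D` continuous on `[1, 2]`;
summing over the classes, `L(s) = c(s) L(s) + R(s)` with `c(1) = χ(N I₀)`.  If `χ(N I₀) ≠ 1`
this gives the limit of `L(s)` as `s → 1⁺`.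
-/

namespace Fermat.Agent.Lib.Cheb.H356

open NumberField NumberField.mixedEmbedding NumberField.Units Module
open Fermat.Agent.S14.H74

open scoped Classical nonZeroDivisors Topology

variable {K : Type*} [Field K] [NumberField K] {m : ℕ} (χ : DirichletCharacter ℂ m)

theorem coprime_of_chi_ne_zero {n : ℕ} (h : χ (n : ZMod m) ≠ 0) : n.Coprime m := by
  by_contra hc
  exact h (MulChar.map_nonunit χ (fun hu ↦ hc ((ZMod.isUnit_iff_coprime n m).mp hu)))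

theorem chi_ne_zero_of_coprime {n : ℕ} (h : n.Coprime m) : χ (n : ZMod m) ≠ 0 := by
  have hu : IsUnit (n : ZMod m) := (ZMod.isUnit_iff_coprime n m).mpr h
  exact (hu.map χ).ne_zero

theorem term_ne_zero {I : Ideal (𝓞 K)} (hI : I ≠ ⊥) (hc : (Ideal.absNorm I).Coprime m) (s : ℝ) :
    term χ s I ≠ 0 := by
  rw [term_eq]
  refine mul_ne_zero (chi_ne_zero_of_coprime χ hc) ?_
  exact_mod_cast (rterm_pos s hI).ne'

theorem continuous_rterm {I : Ideal (𝓞 K)} (hI : I ≠ ⊥) : Continuous fun s : ℝ ↦ rterm s I := by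
  unfold rterm
  have h0 : ((Ideal.absNorm I : ℕ) : ℝ) ≠ 0 := by
    have : Ideal.absNorm I ≠ 0 := by rwa [Ne, Ideal.absNorm_eq_zero_iff]
    exact_mod_cast this
  exact (Real.continuous_const_rpow h0).comp continuous_neg

theorem continuous_term {I : Ideal (𝓞 K)} (hI : I ≠ ⊥) : Continuous fun s : ℝ ↦ term χ s I := by
  simp only [term_eq]
  exact continuous_const.mul (Complex.continuous_ofReal.comp (continuous_rterm hI))

theorem classZ_eq_zero (D : ClassGroup (𝓞 K)) (s : ℝ)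
    (h : ∀ I : CI D, χ ((Ideal.absNorm (I.1 : Ideal (𝓞 K)) : ℕ) : ZMod m) = 0) :
    classZ χ s D = 0 := by
  unfold classZ
  have : (fun I : CI D ↦ term χ s (I.1 : Ideal (𝓞 K))) = fun _ ↦ 0 := by
    funext I
    rw [term_eq, h I, zero_mul]
  rw [this, tsum_zero]

theorem exists_inv_coprime (D : ClassGroup (𝓞 K)) (I : CI D)
    (hI : (Ideal.absNorm (I.1 : Ideal (𝓞 K))).Coprime m) :
    ∃ J : (Ideal (𝓞 K))⁰, ClassGroup.mk0 J = D⁻¹ ∧
      (Ideal.absNorm (J : Ideal (𝓞 K))).Coprime m := by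
  refine ⟨I.1 ^ (Fintype.card (ClassGroup (𝓞 K)) - 1), ?_, ?_⟩
  · rw [map_pow, I.2]
    have h1 : D ^ (Fintype.card (ClassGroup (𝓞 K)) - 1) * D = 1 := by
      rw [← pow_succ, Nat.sub_add_cancel Fintype.card_pos, pow_card_eq_one]
    exact eq_inv_of_mul_eq_one_left h1
  · show (Ideal.absNorm ((I.1 : Ideal (𝓞 K)) ^
      (Fintype.card (ClassGroup (𝓞 K)) - 1))).Coprime m
    rw [map_pow]
    exact hI.pow_left _

/-- The relation between the partial zeta functions of `D` and `D [I₀]⁻¹`. -/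
theorem exists_class_relation (I₀ : (Ideal (𝓞 K))⁰)
    (hcop : (Ideal.absNorm (I₀ : Ideal (𝓞 K))).Coprime m) (D : ClassGroup (𝓞 K)) :
    ∃ R : ℝ → ℂ, ContinuousOn R (Set.Icc 1 2) ∧ ∀ s : ℝ, 1 < s →
      classZ χ s D = (((Ideal.absNorm (I₀ : Ideal (𝓞 K)) : ℕ) : ℂ) *
        term χ s (I₀ : Ideal (𝓞 K))) * classZ χ s (D * (ClassGroup.mk0 I₀)⁻¹) + R s := by
  by_cases h : ∃ J : (Ideal (𝓞 K))⁰, ClassGroup.mk0 J = D⁻¹ ∧
      (Ideal.absNorm (J : Ideal (𝓞 K))).Coprime m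
  · obtain ⟨J, hJ, hJc⟩ := h
    obtain ⟨ι, _, r, e, hcard, hr, he⟩ := exists_reps m (I₀ : Ideal (𝓞 K)) (J : Ideal (𝓞 K))
      (nonZeroDivisors.coe_ne_zero I₀) (nonZeroDivisors.coe_ne_zero J) hcop
    obtain ⟨R, hR, hRs⟩ := exists_continuousOn_compare χ (J : Ideal (𝓞 K))
      ((I₀ : Ideal (𝓞 K)) * (J : Ideal (𝓞 K))) r hr e he
    have hterm : ∀ s : ℝ, term χ s (J : Ideal (𝓞 K)) ≠ 0 :=
      fun s ↦ term_ne_zero χ (nonZeroDivisors.coe_ne_zero J) hJc s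
    have htors : (torsionOrder K : ℂ) ≠ 0 := by exact_mod_cast torsionOrder_ne_zero K
    refine ⟨fun s ↦ R s / ((torsionOrder K : ℂ) * term χ s (J : Ideal (𝓞 K))), ?_, ?_⟩
    · refine hR.div ?_ ?_
      · exact (continuous_const.mul
          (continuous_term χ (nonZeroDivisors.coe_ne_zero J))).continuousOn
      · intro s _
        exact mul_ne_zero htors (hterm s)
    · intro s hs
      have h1 := hRs s hs
      rw [tsum_GS_eq_torsionOrder_mul χ _ hs, tsum_GS_eq_torsionOrder_mul χ _ hs] at h1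
      have hJ' : ClassGroup.mk0 (I₀ * J) = (D * (ClassGroup.mk0 I₀)⁻¹)⁻¹ := by
        rw [map_mul, hJ, mul_inv_rev, inv_inv]
      have h2 := tsum_PJ_eq χ J D hJ s
      have h3 := tsum_PJ_eq χ (I₀ * J) _ hJ' s
      rw [h2] at h1
      rw [show (((I₀ * J : (Ideal (𝓞 K))⁰)) : Ideal (𝓞 K)) =
        (I₀ : Ideal (𝓞 K)) * (J : Ideal (𝓞 K)) from rfl] at h3
      rw [h3, term_mul, hcard] at h1
      have h4 : R s = ((torsionOrder K : ℂ) * term χ s (J : Ideal (𝓞 K))) *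
          (classZ χ s D - (((Ideal.absNorm (I₀ : Ideal (𝓞 K)) : ℕ) : ℂ) *
            term χ s (I₀ : Ideal (𝓞 K))) * classZ χ s (D * (ClassGroup.mk0 I₀)⁻¹)) := by
        linear_combination -h1
      show classZ χ s D = _ + R s / _
      rw [h4, mul_div_cancel_left₀ _ (mul_ne_zero htors (hterm s))]
      ring
  · have hD : ∀ I : CI D, χ ((Ideal.absNorm (I.1 : Ideal (𝓞 K)) : ℕ) : ZMod m) = 0 := by
      intro I
      by_contra hI
      exact h (exists_inv_coprime D I (coprime_of_chi_ne_zero χ hI))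
    have hD' : ∀ I : CI (D * (ClassGroup.mk0 I₀)⁻¹),
        χ ((Ideal.absNorm (I.1 : Ideal (𝓞 K)) : ℕ) : ZMod m) = 0 := by
      intro I
      by_contra hI
      have hc := coprime_of_chi_ne_zero χ hI
      have hcls : ClassGroup.mk0 (I.1 * I₀) = D := by
        rw [map_mul, I.2, inv_mul_cancel_right]
      refine h (exists_inv_coprime D ⟨I.1 * I₀, hcls⟩ ?_)
      show (Ideal.absNorm ((I.1 : Ideal (𝓞 K)) * (I₀ : Ideal (𝓞 K)))).Coprime m
      rw [map_mul]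
      exact Nat.Coprime.mul_left hc hcop
    refine ⟨fun _ ↦ 0, continuousOn_const, fun s _ ↦ ?_⟩
    rw [classZ_eq_zero χ D s hD, classZ_eq_zero χ _ s hD']
    simp

/-- The relation `L = c L + R`. -/
theorem exists_normL_relation (I₀ : (Ideal (𝓞 K))⁰)
    (hcop : (Ideal.absNorm (I₀ : Ideal (𝓞 K))).Coprime m) :
    ∃ R : ℝ → ℂ, ContinuousOn R (Set.Icc 1 2) ∧ ∀ s : ℝ, 1 < s →
      normL (K := K) χ s = (((Ideal.absNorm (I₀ : Ideal (𝓞 K)) : ℕ) : ℂ) *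
        term χ s (I₀ : Ideal (𝓞 K))) * normL (K := K) χ s + R s := by
  choose R hR hRs using exists_class_relation χ I₀ hcop
  refine ⟨fun s ↦ ∑ D, R D s, continuousOn_finsetSum _ (fun D _ ↦ hR D), fun s hs ↦ ?_⟩
  rw [normL_eq_sum_classZ χ hs]
  have hre : ∑ D : ClassGroup (𝓞 K), classZ χ s (D * (ClassGroup.mk0 I₀)⁻¹) =
      ∑ D : ClassGroup (𝓞 K), classZ χ s D :=
    Fintype.sum_equiv (Equiv.mulRight (ClassGroup.mk0 I₀)⁻¹) _ _ (fun D ↦ rfl)
  calc ∑ D : ClassGroup (𝓞 K), classZ χ s D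
      = ∑ D : ClassGroup (𝓞 K), ((((Ideal.absNorm (I₀ : Ideal (𝓞 K)) : ℕ) : ℂ) *
          term χ s (I₀ : Ideal (𝓞 K))) * classZ χ s (D * (ClassGroup.mk0 I₀)⁻¹) + R D s) :=
        Finset.sum_congr rfl (fun D _ ↦ hRs D s hs)
    _ = _ := by rw [Finset.sum_add_distrib, ← Finset.mul_sum, hre]

theorem rterm_one_mul {I : Ideal (𝓞 K)} (hI : I ≠ ⊥) :
    ((Ideal.absNorm I : ℕ) : ℝ) * rterm 1 I = 1 := by
  unfold rterm
  have h0 : ((Ideal.absNorm I : ℕ) : ℝ) ≠ 0 := by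
    have : Ideal.absNorm I ≠ 0 := by rwa [Ne, Ideal.absNorm_eq_zero_iff]
    exact_mod_cast this
  rw [Real.rpow_neg_one, mul_inv_cancel₀ h0]

/-- **Limit of the twisted ideal series at `1⁺`.** -/
theorem exists_tendsto_normL (I₀ : (Ideal (𝓞 K))⁰)
    (hcop : (Ideal.absNorm (I₀ : Ideal (𝓞 K))).Coprime m)
    (hne : χ ((Ideal.absNorm (I₀ : Ideal (𝓞 K)) : ℕ) : ZMod m) ≠ 1) :
    ∃ c : ℂ, Filter.Tendsto (fun s : ℝ ↦ normL (K := K) χ s) (𝓝[>] 1) (𝓝 c) := by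
  obtain ⟨R, hR, hRs⟩ := exists_normL_relation χ I₀ hcop
  have hI₀ : (I₀ : Ideal (𝓞 K)) ≠ ⊥ := nonZeroDivisors.coe_ne_zero I₀
  set c : ℝ → ℂ := fun s ↦ ((Ideal.absNorm (I₀ : Ideal (𝓞 K)) : ℕ) : ℂ) *
    term χ s (I₀ : Ideal (𝓞 K)) with hc
  have hcc : Continuous c := continuous_const.mul (continuous_term χ hI₀)
  have hc1 : c 1 = χ ((Ideal.absNorm (I₀ : Ideal (𝓞 K)) : ℕ) : ZMod m) := by
    simp only [hc, term_eq]
    have := rterm_one_mul hI₀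
    have h2 : (((Ideal.absNorm (I₀ : Ideal (𝓞 K)) : ℕ) : ℂ)) * ((rterm 1 (I₀ : Ideal (𝓞 K)) : ℝ) : ℂ)
        = 1 := by exact_mod_cast this
    linear_combination (χ ((Ideal.absNorm (I₀ : Ideal (𝓞 K)) : ℕ) : ZMod m)) * h2
  have h1 : 1 - c 1 ≠ 0 := by
    rw [hc1]
    exact sub_ne_zero.mpr (Ne.symm hne)
  refine ⟨R 1 / (1 - c 1), ?_⟩
  have hRt : Filter.Tendsto R (𝓝[>] 1) (𝓝 (R 1)) := by
    have h := hR 1 (by norm_num : (1 : ℝ) ∈ Set.Icc 1 2)
    refine Filter.Tendsto.mono_left h ?_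
    rw [← nhdsWithin_Ioc_eq_nhdsGT (by norm_num : (1 : ℝ) < 2)]
    exact nhdsWithin_mono _ Set.Ioc_subset_Icc_self
  have hct : Filter.Tendsto (fun s ↦ 1 - c s) (𝓝[>] 1) (𝓝 (1 - c 1)) :=
    ((continuous_const.sub hcc).tendsto 1).mono_left nhdsWithin_le_nhds
  have hdiv := hRt.div hct h1
  refine hdiv.congr' ?_
  have hev : ∀ᶠ s in 𝓝[>] (1 : ℝ), 1 - c s ≠ 0 := hct.eventually_ne h1
  filter_upwards [hev, self_mem_nhdsWithin] with s hs1 hs2
  have h3 := hRs s hs2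
  show R s / (1 - c s) = normL (K := K) χ s
  rw [div_eq_iff hs1]
  linear_combination -h3

end Fermat.Agent.Lib.Cheb.H356
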