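import Mathlib

/-!
# CHEB / AN (helper356): sign and congruence of norms under small periods

* `norm_pos_of_small` : `0 < N(1 + u)` if all conjugates of `u` are small.
* `intNorm_mul_pos`  : `N(y + t)` and `N(y)` have the same sign if `t` is small w.r.t. `y`
  at every embedding.
* `intNorm_add_congr` : `N(y + t) ≡ N(y) mod m` for `t ∈ m 𝓞`.
* `absNorm_span_add_congr` : `absNorm (y + t) ≡ absNorm (y) mod m` under both hypotheses.
-/

namespace Fermat.Agent.Lib.Cheb.H356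

open NumberField Module

variable {K : Type*} [Field K] [NumberField K]

theorem norm_pos_of_small (u : K)
    (hu : ∀ φ : K →ₐ[ℚ] ℂ, 2 * (finrank ℚ K : ℝ) * ‖φ u‖ ≤ 1) :
    0 < Algebra.norm ℚ (1 + u) := by
  have hd : (0 : ℝ) < finrank ℚ K := Nat.cast_pos.mpr finrank_pos
  have h1 : algebraMap ℚ ℂ (Algebra.norm ℚ (1 + u)) = ∏ φ : K →ₐ[ℚ] ℂ, (1 + φ u) := by
    rw [Algebra.norm_eq_prod_embeddings ℚ ℂ (1 + u)]
    refine Finset.prod_congr rfl fun φ _ ↦ ?_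
    rw [map_add, map_one]
  have h2 := Finset.norm_prod_one_add_sub_one_le (Finset.univ : Finset (K →ₐ[ℚ] ℂ))
    (fun φ ↦ φ u)
  have h3 : ∑ φ : K →ₐ[ℚ] ℂ, ‖φ u‖ ≤ 1 / 2 := by
    have hcard : (Finset.univ : Finset (K →ₐ[ℚ] ℂ)).card = finrank ℚ K := by
      rw [Finset.card_univ, AlgHom.card]
    have : ∑ φ : K →ₐ[ℚ] ℂ, ‖φ u‖ ≤ ∑ _φ : K →ₐ[ℚ] ℂ, (1 / (2 * (finrank ℚ K : ℝ))) := by
      refine Finset.sum_le_sum fun φ _ ↦ ?_
      rw [le_div_iff₀ (by positivity)]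
      linarith [hu φ]
    refine this.trans ?_
    rw [Finset.sum_const, hcard, nsmul_eq_mul]
    field_simp
    rfl
  have h4 : Real.exp (1 / 2) < 2 := by
    have := Real.exp_one_lt_d9
    have h5 : Real.exp (1 / 2) * Real.exp (1 / 2) = Real.exp 1 := by
      rw [← Real.exp_add]; norm_num
    nlinarith [Real.exp_pos (1 / 2 : ℝ)]
  have h6 : ‖(algebraMap ℚ ℂ (Algebra.norm ℚ (1 + u))) - 1‖ < 1 := by
    rw [h1]
    calc ‖∏ φ : K →ₐ[ℚ] ℂ, (1 + φ u) - 1‖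
        ≤ Real.exp (∑ φ : K →ₐ[ℚ] ℂ, ‖φ u‖) - 1 := h2
      _ ≤ Real.exp (1 / 2) - 1 := by gcongr
      _ < 1 := by linarith
  have h7 : ‖((Algebra.norm ℚ (1 + u) : ℚ) : ℝ) - 1‖ < 1 := by
    have : (algebraMap ℚ ℂ (Algebra.norm ℚ (1 + u))) - 1 =
        (((Algebra.norm ℚ (1 + u) : ℚ) : ℝ) - 1 : ℝ) := by
      push_cast
      rfl
    rw [this, Complex.norm_real] at h6
    exact h6
  rw [Real.norm_eq_abs, abs_lt] at h7
  have : (0 : ℝ) < ((Algebra.norm ℚ (1 + u) : ℚ) : ℝ) := by linarith [h7.1]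
  exact_mod_cast this

theorem intNorm_mul_pos (y t : 𝓞 K) (hy : y ≠ 0)
    (h : ∀ φ : K →ₐ[ℚ] ℂ, 2 * (finrank ℚ K : ℝ) * ‖φ (t : K)‖ ≤ ‖φ (y : K)‖) :
    0 < Algebra.norm ℤ (y + t) * Algebra.norm ℤ y := by
  have hyK : (y : K) ≠ 0 := by
    rwa [Ne, RingOfIntegers.coe_eq_zero_iff]
  have hu : ∀ φ : K →ₐ[ℚ] ℂ, 2 * (finrank ℚ K : ℝ) * ‖φ ((t : K) / (y : K))‖ ≤ 1 := by
    intro φ
    have hφy : 0 < ‖φ (y : K)‖ := by
      rw [norm_pos_iff]
      exact (map_ne_zero φ).mpr hyK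
    rw [map_div₀, norm_div, ← mul_div_assoc, div_le_one hφy]
    exact h φ
  have hpos := norm_pos_of_small ((t : K) / (y : K)) hu
  have e1 : ((y + t : 𝓞 K) : K) = (y : K) * (1 + (t : K) / (y : K)) := by
    rw [mul_add, mul_one, mul_div_cancel₀ _ hyK]
    rfl
  have e2 : ((Algebra.norm ℤ (y + t) * Algebra.norm ℤ y : ℤ) : ℚ) =
      (Algebra.norm ℚ (y : K)) ^ 2 * Algebra.norm ℚ (1 + (t : K) / (y : K)) := by
    push_cast
    rw [Algebra.coe_norm_int, Algebra.coe_norm_int, e1, map_mul]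
    ring
  have hN : Algebra.norm ℚ (y : K) ≠ 0 := by
    rwa [Ne, Algebra.norm_eq_zero_iff]
  have : (0 : ℚ) < ((Algebra.norm ℤ (y + t) * Algebra.norm ℤ y : ℤ) : ℚ) := by
    rw [e2]
    positivity
  exact_mod_cast this

theorem intNorm_add_congr (m : ℕ) (y t : 𝓞 K) (ht : t ∈ Ideal.span {(m : 𝓞 K)}) :
    ((Algebra.norm ℤ (y + t) : ℤ) : ZMod m) = ((Algebra.norm ℤ y : ℤ) : ZMod m) := by
  classical
  obtain ⟨t', rfl⟩ := Ideal.mem_span_singleton'.mp ht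
  let b := RingOfIntegers.basis K
  rw [Algebra.norm_eq_matrix_det b, Algebra.norm_eq_matrix_det b]
  have hm : (Algebra.leftMulMatrix b) ((m : 𝓞 K)) = (m : ℤ) • (1 : Matrix _ _ ℤ) := by
    have h1 : ((m : 𝓞 K)) = algebraMap ℤ (𝓞 K) (m : ℤ) := by simp
    rw [h1, AlgHom.commutes, Algebra.algebraMap_eq_smul_one]
  have key : (Int.castRingHom (ZMod m)).mapMatrix ((Algebra.leftMulMatrix b) (y + t' * (m : 𝓞 K)))
      = (Int.castRingHom (ZMod m)).mapMatrix ((Algebra.leftMulMatrix b) y) := by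
    rw [map_add, map_mul, hm, Matrix.mul_smul, Matrix.mul_one]
    ext i j
    simp only [RingHom.mapMatrix_apply, Matrix.map_apply, Matrix.add_apply, Matrix.smul_apply,
      smul_eq_mul, Int.coe_castRingHom]
    push_cast
    simp
  have h2 := congrArg Matrix.det key
  rw [← RingHom.map_det, ← RingHom.map_det] at h2
  simpa using h2

theorem natAbs_cast_congr {m : ℕ} {a b : ℤ} (hpos : 0 < a * b)
    (h : (a : ZMod m) = (b : ZMod m)) : ((a.natAbs : ℕ) : ZMod m) = ((b.natAbs : ℕ) : ZMod m) := by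
  rcases lt_trichotomy a 0 with ha | ha | ha
  · have hb : b < 0 := by
      by_contra hb
      have := not_lt.mp hb
      nlinarith
    have e1 : ((a.natAbs : ℕ) : ℤ) = -a := by omega
    have e2 : ((b.natAbs : ℕ) : ℤ) = -b := by omega
    rw [← Int.cast_natCast a.natAbs, ← Int.cast_natCast b.natAbs, e1, e2, Int.cast_neg,
      Int.cast_neg, h]
  · subst ha
    simp at hpos
  · have hb : 0 < b := by
      by_contra hb
      have := not_lt.mp hb
      nlinarith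
    have e1 : ((a.natAbs : ℕ) : ℤ) = a := by omega
    have e2 : ((b.natAbs : ℕ) : ℤ) = b := by omega
    rw [← Int.cast_natCast a.natAbs, ← Int.cast_natCast b.natAbs, e1, e2, h]

theorem absNorm_span_add_congr (m : ℕ) (y t : 𝓞 K) (hy : y ≠ 0)
    (ht : t ∈ Ideal.span {(m : 𝓞 K)})
    (h : ∀ φ : K →ₐ[ℚ] ℂ, 2 * (finrank ℚ K : ℝ) * ‖φ (t : K)‖ ≤ ‖φ (y : K)‖) :
    ((Ideal.absNorm (Ideal.span {y + t}) : ℕ) : ZMod m) =
      ((Ideal.absNorm (Ideal.span {y}) : ℕ) : ZMod m) := by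
  rw [Ideal.absNorm_span_singleton, Ideal.absNorm_span_singleton]
  exact natAbs_cast_congr (intNorm_mul_pos y t hy h) (intNorm_add_congr m y t ht)

end Fermat.Agent.Lib.Cheb.H356
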