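import Fermat.Agent.S14.H74.Lattice
import Fermat.Agent.Lib.Cheb.H356.Sign

/-!
# CHEB / AN (helper356): the twisted summand and its domination

`W χ x = χ (absNorm (x))`, `GS χ s x = FS s x * W χ x`.  For a period `t ∈ m 𝓞` the differences
`GS s (y + t) - GS s y` are dominated, uniformly in `s ∈ [1, 2]`, by a summable function.
-/

namespace Fermat.Agent.Lib.Cheb.H356

open NumberField NumberField.mixedEmbedding NumberField.InfinitePlace Module
open Fermat.Agent.S14.H74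

open scoped Classical

variable (K : Type*) [Field K] [NumberField K] {m : ℕ} (χ : DirichletCharacter ℂ m)

/-- The weight `χ (N (x))`. -/
noncomputable def W (x : 𝓞 K) : ℂ := χ ((Ideal.absNorm (Ideal.span {x}) : ℕ) : ZMod m)

/-- The twisted summand. -/
noncomputable def GS (s : ℝ) (x : 𝓞 K) : ℂ := (FS K s x : ℂ) * W K χ x

variable {K}

theorem norm_W_le_one (x : 𝓞 K) : ‖W K χ x‖ ≤ 1 := DirichletCharacter.norm_le_one χ _

theorem norm_GS_le (s : ℝ) (x : 𝓞 K) : ‖GS K χ s x‖ ≤ FS K s x := by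
  unfold GS
  rw [norm_mul, Complex.norm_real, Real.norm_eq_abs, abs_of_nonneg (FS_nonneg s x)]
  exact mul_le_of_le_one_right (FS_nonneg s x) (norm_W_le_one χ x)

theorem norm_GS_le_one {s : ℝ} (hs : 0 ≤ s) (x : 𝓞 K) : ‖GS K χ s x‖ ≤ 1 :=
  (norm_GS_le χ s x).trans (FS_le_one hs x)

theorem GS_eq_zero_of_rho {s : ℝ} {x : 𝓞 K} (h : rho K (mixedEmbedding K (x : K)) = 0) :
    GS K χ s x = 0 := by
  unfold GS FS
  rw [fS_eq_zero_of_rho_eq_zero h]
  simp

theorem summable_GS {s : ℝ} (hs : 1 < s) : Summable (GS K χ s) :=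
  Summable.of_norm_bounded (summable_FS (K := K) hs) (norm_GS_le χ s)

theorem continuous_FS (x : 𝓞 K) : Continuous fun s : ℝ ↦ FS K s x := by
  by_cases hx : x = 0
  · subst hx
    simp only [FS_zero]
    exact continuous_const
  · have h1 := one_le_mixedEmbedding_norm hx
    unfold FS fS
    refine continuous_const.mul ?_
    exact (Real.continuous_const_rpow (by linarith : mixedEmbedding.norm
      (mixedEmbedding K (x : K)) ≠ 0)).comp continuous_neg

theorem continuous_GS (x : 𝓞 K) : Continuous fun s : ℝ ↦ GS K χ s x := by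
  unfold GS
  exact (Complex.continuous_ofReal.comp (continuous_FS x)).mul continuous_const

theorem norm_embedding_le (φ : K →ₐ[ℚ] ℂ) (x : 𝓞 K) : ‖φ (x : K)‖ ≤ mnorm K x := by
  have h1 : ‖φ (x : K)‖ = normAtPlace (InfinitePlace.mk φ.toRingHom) (mixedEmbedding K (x : K)) := by
    rw [normAtPlace_apply]
    rfl
  rw [h1]
  exact normAtPlace_le_norm _ _

theorem mnorm_le_mul_norm_embedding {A : ℝ}
    (hA : ∀ x : mixedSpace K, rho K x ≠ 0 → ∀ w, ‖x‖ ≤ A * normAtPlace w x)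
    (φ : K →ₐ[ℚ] ℂ) {x : 𝓞 K} (hx : rho K (mixedEmbedding K (x : K)) ≠ 0) :
    mnorm K x ≤ A * ‖φ (x : K)‖ := by
  have h1 : ‖φ (x : K)‖ = normAtPlace (InfinitePlace.mk φ.toRingHom) (mixedEmbedding K (x : K)) := by
    rw [normAtPlace_apply]
    rfl
  rw [h1]
  exact hA _ hx _

theorem mnorm_neg (x : 𝓞 K) : mnorm K (-x) = mnorm K x := by
  unfold mnorm
  have : mixedEmbedding K ((-x : 𝓞 K) : K) = - mixedEmbedding K (x : K) := by
    rw [← map_neg]
    rfl
  rw [this, norm_neg]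

/-- For a period `t ∈ m 𝓞` and `y` large on the support of `rho`, the weight is `t`-periodic. -/
theorem exists_W_add_eq (t : 𝓞 K) (ht : t ∈ Ideal.span {(m : 𝓞 K)}) :
    ∃ R : ℝ, 0 < R ∧ ∀ y : 𝓞 K, R ≤ mnorm K y →
      (rho K (mixedEmbedding K (y : K)) ≠ 0 ∨ rho K (mixedEmbedding K ((y + t : 𝓞 K) : K)) ≠ 0) →
      W K χ (y + t) = W K χ y := by
  obtain ⟨A, hA1, hA⟩ := exists_support_bound (K := K)
  have hA0 : 0 < A := by linarith
  have hd : (1 : ℝ) ≤ finrank ℚ K := by exact_mod_cast finrank_pos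
  set d : ℝ := ((finrank ℚ K : ℕ) : ℝ) with hd_def
  have ht0 : 0 ≤ mnorm K t := mnorm_nonneg t
  refine ⟨(2 * d * A + 1) * (mnorm K t + 1), by positivity, fun y hy hρ ↦ ?_⟩
  have hyt : 2 * d * A * mnorm K t + mnorm K t + 1 ≤ mnorm K y := by
    have : 0 ≤ 2 * d * A := by positivity
    nlinarith
  have hsmall : ∀ z : 𝓞 K, rho K (mixedEmbedding K (z : K)) ≠ 0 →
      2 * d * A * mnorm K t ≤ mnorm K z →
      ∀ φ : K →ₐ[ℚ] ℂ, 2 * d * ‖φ (t : K)‖ ≤ ‖φ (z : K)‖ := by
    intro z hz hzt φ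
    have h1 := norm_embedding_le φ t
    have h2 := mnorm_le_mul_norm_embedding hA φ hz
    have h3 : 2 * d * A * ‖φ (t : K)‖ ≤ A * ‖φ (z : K)‖ := by
      calc 2 * d * A * ‖φ (t : K)‖ ≤ 2 * d * A * mnorm K t := by gcongr
        _ ≤ mnorm K z := hzt
        _ ≤ A * ‖φ (z : K)‖ := h2
    have h4 : A * (2 * d * ‖φ (t : K)‖) ≤ A * ‖φ (z : K)‖ := by linarith
    exact le_of_mul_le_mul_left h4 hA0
  unfold W
  rcases hρ with hρ | hρ
  · have hy0 : y ≠ 0 := by
      intro h
      rw [h] at hyt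
      have : mnorm K (0 : 𝓞 K) = 0 := mnorm_eq_zero_iff.mpr rfl
      have : 0 ≤ 2 * d * A * mnorm K t := by positivity
      linarith
    rw [absNorm_span_add_congr m y t hy0 ht (hsmall y hρ (by linarith))]
  · have hyt' : 2 * d * A * mnorm K t + 1 ≤ mnorm K (y + t) := by
      have h1 : mnorm K y ≤ mnorm K (y + t) + mnorm K (-t) := by
        have := mnorm_add_le (y + t) (-t)
        rwa [add_neg_cancel_right] at this
      rw [mnorm_neg] at h1
      linarith
    have hy0 : y + t ≠ 0 := by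
      intro h
      rw [h] at hyt'
      have : mnorm K (0 : 𝓞 K) = 0 := mnorm_eq_zero_iff.mpr rfl
      have : 0 ≤ 2 * d * A * mnorm K t := by positivity
      linarith
    have hnt : -t ∈ Ideal.span {(m : 𝓞 K)} := (Ideal.neg_mem_iff _).mpr ht
    have h5 := absNorm_span_add_congr m (y + t) (-t) hy0 hnt (fun φ ↦ by
      have := hsmall (y + t) hρ (by linarith) φ
      rwa [show ((-t : 𝓞 K) : K) = -(t : K) from rfl, map_neg, norm_neg])
    rw [add_neg_cancel_right] at h5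
    rw [h5]

/-- Domination of the differences `GS (y + t) - GS y` for a period `t ∈ m 𝓞`, uniformly in
`s ∈ [1, 2]`. -/
theorem exists_dominating_twist (t : 𝓞 K) (ht : t ∈ Ideal.span {(m : 𝓞 K)}) :
    ∃ g : 𝓞 K → ℝ, Summable g ∧ (∀ y, 0 ≤ g y) ∧
      ∀ s : ℝ, 1 ≤ s → s ≤ 2 → ∀ y : 𝓞 K, ‖GS K χ s (y + t) - GS K χ s y‖ ≤ g y := by
  obtain ⟨g₀, hg₀, hg₀0, hg₀b⟩ := exists_dominating (K := K) t
  obtain ⟨R, hR, hW⟩ := exists_W_add_eq χ t ht
  set n : ℕ := finrank ℚ K with hn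
  have hsum : Summable fun y : 𝓞 K ↦ mnorm K y ^ (-((n : ℝ) + 1)) :=
    summable_mnorm_rpow (by rw [neg_lt_neg_iff]; linarith)
  refine ⟨fun y ↦ g₀ y + (2 * R ^ (n + 1) * mnorm K y ^ (-((n : ℝ) + 1)) +
      if y = 0 then 2 else 0),
    hg₀.add ((hsum.mul_left _).add (hasSum_ite_eq 0 (2 : ℝ)).summable), fun y ↦ ?_,
    fun s hs1 hs2 y ↦ ?_⟩
  · have h1 : 0 ≤ mnorm K y ^ (-((n : ℝ) + 1)) := Real.rpow_nonneg (mnorm_nonneg y) _
    have h2 : (0 : ℝ) ≤ if y = 0 then 2 else 0 := by split_ifs <;> norm_num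
    have h3 := hg₀0 y
    show 0 ≤ g₀ y + (2 * R ^ (n + 1) * mnorm K y ^ (-((n : ℝ) + 1)) + if y = 0 then 2 else 0)
    positivity
  · have hs0 : (0 : ℝ) ≤ s := by linarith
    show ‖GS K χ s (y + t) - GS K χ s y‖ ≤
      g₀ y + (2 * R ^ (n + 1) * mnorm K y ^ (-((n : ℝ) + 1)) + if y = 0 then 2 else 0)
    have htriv : ‖GS K χ s (y + t) - GS K χ s y‖ ≤ 2 := by
      have a1 := norm_GS_le_one χ hs0 (y + t)
      have a2 := norm_GS_le_one χ hs0 y
      calc ‖GS K χ s (y + t) - GS K χ s y‖ ≤ ‖GS K χ s (y + t)‖ + ‖GS K χ s y‖ := norm_sub_le _ _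
        _ ≤ 2 := by linarith
    have hg0 := hg₀0 y
    have hpow0 : 0 ≤ mnorm K y ^ (-((n : ℝ) + 1)) := Real.rpow_nonneg (mnorm_nonneg y) _
    by_cases hy : y = 0
    · rw [if_pos hy]
      have : 0 ≤ 2 * R ^ (n + 1) * mnorm K y ^ (-((n : ℝ) + 1)) := by positivity
      linarith
    · rw [if_neg hy, add_zero]
      have hm : 0 < mnorm K y := lt_of_le_of_ne (mnorm_nonneg y) (Ne.symm (by
        rwa [Ne, mnorm_eq_zero_iff]))
      have e : mnorm K y ^ (-((n : ℝ) + 1)) = 1 / mnorm K y ^ (n + 1) := by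
        rw [Real.rpow_neg hm.le, one_div]
        congr 1
        exact_mod_cast Real.rpow_natCast (mnorm K y) (n + 1)
      by_cases hyR : R ≤ mnorm K y
      · have : 0 ≤ 2 * R ^ (n + 1) * mnorm K y ^ (-((n : ℝ) + 1)) := by positivity
        by_cases hρ : rho K (mixedEmbedding K (y : K)) ≠ 0 ∨
            rho K (mixedEmbedding K ((y + t : 𝓞 K) : K)) ≠ 0
        · have hWeq := hW y hyR hρ
          have e2 : GS K χ s (y + t) - GS K χ s y =
              ((FS K s (y + t) - FS K s y : ℝ) : ℂ) * W K χ y := by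
            unfold GS
            rw [hWeq]
            push_cast
            ring
          rw [e2, norm_mul, Complex.norm_real, Real.norm_eq_abs]
          have h6 := hg₀b s hs1 hs2 y
          have h7 := norm_W_le_one χ y
          have h8 : |FS K s (y + t) - FS K s y| * ‖W K χ y‖ ≤ |FS K s (y + t) - FS K s y| :=
            mul_le_of_le_one_right (abs_nonneg _) h7
          linarith
        · push Not at hρ
          rw [GS_eq_zero_of_rho χ hρ.1, GS_eq_zero_of_rho χ hρ.2, sub_zero, norm_zero]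
          linarith
      · refine htriv.trans ?_
        rw [e]
        have h3 : mnorm K y ^ (n + 1) ≤ R ^ (n + 1) :=
          pow_le_pow_left₀ hm.le (not_le.mp hyR).le _
        have h4 : 0 < mnorm K y ^ (n + 1) := by positivity
        have h5 : 1 ≤ R ^ (n + 1) * (1 / mnorm K y ^ (n + 1)) := by
          rw [mul_one_div, le_div_iff₀ h4, one_mul]
          exact h3
        nlinarith

end Fermat.Agent.Lib.Cheb.H356
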